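import Fermat.Agent.PoitouTate.LocalDual.Transversal
import Fermat.Agent.PoitouTate.Detect

/-!
# The invariant of a transfer is the invariant

The transfer of the symbol of a layer and an element is the symbol of the layer and the norm of the
element, because the carry of the components differs from the carry by the coboundary of an integer
valued function.
-/

set_option autoImplicit false
set_option linter.style.haveILetI false
set_option linter.unusedSectionVars false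
set_option maxHeartbeats 1000000

noncomputable section

open scoped Pointwise

namespace FLTAgent.PoitouTate

open FLTAgent.Lowering.P1 FLTAgent.Lowering.P1.Brauer

local notation "LL" => AlgebraicClosure ℚ
local notation "GG" => (AlgebraicClosure ℚ ≃ₐ[ℚ] AlgebraicClosure ℚ)
local notation "VS" => ValuationSubring (AlgebraicClosure ℚ)
local notation "Dec" => ValuationSubring.decompositionSubgroup ℚ

variable {p : ℕ} [Fact p.Prime] {S : Finset Nat.Primes}

/-- The carry is the coboundary of the representatives. -/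
theorem natCast_mul_carry {m : ℕ} [NeZero m] {ψ : GG → ZMod m} {σ τ : GG}
    (h : ψ (σ * τ) = ψ σ + ψ τ) :
    (m : ℤ) * carry m ψ σ τ = ((ψ σ).val : ℤ) + (ψ τ).val - (ψ (σ * τ)).val := by
  rw [h]
  unfold carry
  split_ifs with hc
  · rw [ZMod.val_add_of_le hc, Nat.cast_sub hc]; push_cast; ring
  · rw [ZMod.val_add_of_lt (not_le.1 hc)]; push_cast; ring

theorem zeta_pow_val_sum {ι : Type} [DecidableEq ι] (s : Finset ι) (a : ι → ZMod p) :
    zeta p ^ (∑ i ∈ s, a i).val = ∏ i ∈ s, zeta p ^ (a i).val := by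
  induction s using Finset.induction with
  | empty => simp
  | insert i s hi ih =>
    rw [Finset.sum_insert hi, Finset.prod_insert hi, zeta_pow_val_add (zeta_spec p), ih]

namespace SField

variable (F : SField p S) (W : VS)

/-- The norm from the part in the group of the field, by the transversal. -/
theorem nrm_Hw_eq {y : LL} (hy : ∀ t ∈ F.Hw W, t y = y) :
    nrm (F.Hw W) (Dec W) y = ∏ x : F.LQuo W, (x.out : GG)⁻¹ y := by
  have hmem : ∀ d : ↥(Dec W), d ∈ (F.Hw W).subgroupOf (Dec W) ↔ (d : GG) ∈ F.N := fun d =>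
    ⟨fun h => (Subgroup.mem_inf.1 (Subgroup.mem_subgroupOf.1 h)).1,
      fun h => Subgroup.mem_subgroupOf.2 (Subgroup.mem_inf.2 ⟨h, d.2⟩)⟩
  refine nrm_eq_prod hy (fun x : F.LQuo W => (x.out)⁻¹) ⟨fun x x' h => ?_, fun q => ?_⟩
  · have h1 := (hmem _).1 (QuotientGroup.eq.1 h)
    rw [inv_inv] at h1
    have h2 : ((x.out * x'.out⁻¹ : ↥(Dec W)) : F.LQuo W) = 1 :=
      (QuotientGroup.eq_one_iff _).2 (Subgroup.mem_comap.2 h1)
    rw [QuotientGroup.mk_mul, QuotientGroup.mk_inv, QuotientGroup.out_eq', QuotientGroup.out_eq',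
      mul_inv_eq_one] at h2
    exact h2
  · obtain ⟨d, rfl⟩ := QuotientGroup.mk_surjective q
    refine ⟨(d : F.LQuo W)⁻¹, QuotientGroup.eq.2 ((hmem _).2 ?_)⟩
    rw [inv_inv]
    refine (Subgroup.mem_comap.1 ((QuotientGroup.eq_one_iff (N := F.N.comap (Dec W).subtype)
      (((d : F.LQuo W)⁻¹).out * d)).1 ?_) : _)
    rw [QuotientGroup.mk_mul, QuotientGroup.out_eq', inv_mul_cancel]

variable {l : ℕ} (hp2 : p ≠ 2) (hl : l.Prime) (hW : W.LiesOverPrime l)

include hp2 hl hW in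
/-- The invariant of a transfer is the invariant. -/
theorem invCor : F.InvCor W := by
  classical
  intro t ht
  have hp := (Fact.out : p.Prime)
  obtain ⟨Y, hY⟩ : ∃ Y, Y = Layer.layer hp2 := ⟨_, rfl⟩
  rw [invL_eq hp2, invL_eq hp2, ← hY]
  have hH := F.localSub_Hw W
  obtain ⟨n, hn0, hne⟩ := exists_nonzero Y hl hW hH
  haveI : NeZero (p ^ n) := ⟨pow_ne_zero _ hp.ne_zero⟩
  obtain ⟨b, hb0, hb, ⟨f, hf, hfne, hfc⟩, he⟩ := hasInv_invH Y hl hW targetLocal hp2 hH
    (coc_expC ht) (expC_pow t) (hne n le_rfl)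
  have ho := hH.openIn
  refine invH_eq Y hl hW localSub_self hn0 ⟨nrm (F.Hw W) (Dec W) b, nrm_ne ho hb0,
    fun σ hσ => nrm_fixed ho hb hσ, ?_, by
      rw [nrm_of_fixed (localSub_self (V := W)).openIn fun σ hσ => nrm_fixed ho hb hσ,
        Subgroup.relIndex_self, pow_one]
      exact he⟩
  -- the one cochain
  let k : F.LQuo W → ↥(Dec W) → ℤ := fun x g =>
    carry (p ^ n) (Y.ψ n) (x.out : GG) g -
      carry (p ^ n) (Y.ψ n) (F.uH W x g : GG) ((x * (g : F.LQuo W)).out : ↥(Dec W))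
  let φ : GG → LL := fun g => if hg : g ∈ Dec W then
    ∏ x : F.LQuo W, (x.out : GG)⁻¹ (f (F.uH W x ⟨g, hg⟩ : GG) * b ^ (-k x ⟨g, hg⟩)) else 1
  refine ⟨φ, ?_, fun σ hσ => ?_, fun σ hσ τ hτ => ?_⟩
  · obtain ⟨E₀, hE₀, hlev⟩ := hf
    obtain ⟨E₁, hE₁, hψ⟩ := Y.lev n
    obtain ⟨M, hM, hM'⟩ := F.exists_level W (E₀ ⊔ E₁)
    refine ⟨M ⊔ E₁, inferInstance, fun g hg s hs hsM => ?_⟩
    simp only [φ, dif_pos hg, dif_pos (mul_mem hg hs)]
    refine Finset.prod_congr rfl fun x _ => congrArg _ ?_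
    obtain ⟨hgs, s', hs', e⟩ := hM' x ⟨g, hg⟩ ⟨s, hs⟩
      (IntermediateField.fixingSubgroup_antitone le_sup_left hsM)
    have e' : F.uH W x ⟨g * s, mul_mem hg hs⟩ = F.uH W x ⟨g, hg⟩ * s' := e
    have hgs' : ((⟨g * s, mul_mem hg hs⟩ : ↥(Dec W)) : F.LQuo W) =
        ((⟨g, hg⟩ : ↥(Dec W)) : F.LQuo W) := hgs
    simp only [k, e', hgs', Subgroup.coe_mul, carry,
      hψ g s (IntermediateField.fixingSubgroup_antitone le_sup_right hsM),
      hψ _ (s' : GG) (IntermediateField.fixingSubgroup_antitone le_sup_right hs'),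
      hlev _ (F.uH W x ⟨g, hg⟩).2 _ s'.2 (IntermediateField.fixingSubgroup_antitone le_sup_left hs')]
  · simp only [φ, dif_pos hσ]
    exact Finset.prod_ne_zero_iff.2 fun x _ => (map_ne_zero _).2
      (mul_ne_zero (hfne _ (F.uH W x _).2) (zpow_ne_zero _ hb0))
  set g : ↥(Dec W) := ⟨σ, hσ⟩ with hg
  set h : ↥(Dec W) := ⟨τ, hτ⟩ with hh
  have hστ : (⟨σ * τ, mul_mem hσ hτ⟩ : ↥(Dec W)) = g * h := rfl
  rw [expC_of_mem _ hσ hτ, cor2, zeta_pow_val_sum, symR_eq_zpow, F.nrm_Hw_eq W hb, dlt]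
  simp only [φ, dif_pos hσ, dif_pos hτ, dif_pos (mul_mem hσ hτ), hστ, ← hg, ← hh]
  have hre : (∏ x : F.LQuo W, σ ((x.out : GG)⁻¹ (f (F.uH W x h : GG) * b ^ (-k x h)))) =
      ∏ x : F.LQuo W, σ (((x * (g : F.LQuo W)).out : GG)⁻¹
        (f (F.uH W (x * (g : F.LQuo W)) h : GG) * b ^ (-k (x * (g : F.LQuo W)) h))) :=
    (Fintype.prod_equiv (Equiv.mulRight (g : F.LQuo W)) _ _ fun x => rfl).symm
  rw [map_prod, hre, ← Finset.prod_zpow, ← Finset.prod_mul_distrib, ← Finset.prod_div_distrib,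
    ← Finset.prod_mul_distrib]
  refine Finset.prod_congr rfl fun x _ => ?_
  set u : GG := (F.uH W x g : GG) with hu
  set v : GG := (F.uH W (x * (g : F.LQuo W)) h : GG) with hv
  set y : GG := (((x * (g : F.LQuo W)).out : ↥(Dec W)) : GG) with hy
  set w : GG := (((x * (g : F.LQuo W) * (h : F.LQuo W)).out : ↥(Dec W)) : GG) with hw
  have huH : u ∈ F.Hw W := (F.uH W x g).2
  have hvH : v ∈ F.Hw W := (F.uH W (x * (g : F.LQuo W)) h).2
  have e1 : u * y = (x.out : GG) * σ := congrArg Subtype.val (F.uG_mul_out (Dec W).subtype x g)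
  have e2 : v * w = y * τ := congrArg Subtype.val (F.uG_mul_out (Dec W).subtype _ h)
  have e0 : σ * y⁻¹ = (x.out : GG)⁻¹ * u := by
    rw [show u = u * y * y⁻¹ by group, e1]; group
  have huv : ((F.uH W x (g * h) : ↥(F.Hw W)) : GG) = u * v := by rw [F.uH_mul]; rfl
  have hw' : (((x * ((g * h : ↥(Dec W)) : F.LQuo W)).out : ↥(Dec W)) : GG) = w := by
    rw [QuotientGroup.mk_mul, ← mul_assoc]
  have hk : carry (p ^ n) (Y.ψ n) u v = carry (p ^ n) (Y.ψ n) σ τ - k x g -
      k (x * (g : F.LQuo W)) h + k x (g * h) := by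
    refine mul_left_cancel₀ (Int.natCast_ne_zero.2 (NeZero.ne (p ^ n))) ?_
    simp only [k, Subgroup.coe_mul, huv, hw', ← hu, ← hv, ← hy, ← hw, mul_add, mul_sub,
      show (g : GG) = σ from rfl, show (h : GG) = τ from rfl,
      natCast_mul_carry (Y.mul n _ _)]
    rw [e1, e2, show u * v * w = (x.out : GG) * (σ * τ) by
      rw [mul_assoc u, e2, ← mul_assoc u, e1, mul_assoc]]
    ring
  have key : PoitouTate.zeta p ^ (t (F.uH W x g) (F.uH W (x * (g : F.LQuo W)) h)).val =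
      b ^ carry (p ^ n) (Y.ψ n) u v * (u (f v) * f u / f (u * v)) := by
    rw [← symR_eq_zpow, ← dlt, ← hfc u huH v hvH, expC_of_mem t huH hvH]
  rw [← om_inv, ← apply_zeta_val, key, ← AlgEquiv.mul_apply σ, e0, AlgEquiv.mul_apply,
    ← map_zpow₀, ← map_mul, ← map_div₀, ← map_mul, huv]
  refine congrArg _ ?_
  rw [hk, map_mul, map_zpow₀, hb u huH]
  have := hfne _ (mul_mem huH hvH)
  simp only [zpow_add₀ hb0, zpow_sub₀ hb0, zpow_neg]
  field_simp

end SField

/-- The invariance of the invariant under transfer, for all fields and places. -/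
theorem invCor_all (p : ℕ) [Fact p.Prime] (hp2 : p ≠ 2) (S : Finset Nat.Primes) (F : SField p S)
    (W : VS) (l : ℕ) (hl : l.Prime) (hW : W.LiesOverPrime l) : F.InvCor W :=
  F.invCor W hp2 hl hW

end FLTAgent.PoitouTate
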