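import Fermat.Agent.PoitouTate.LocalDual.Shift

/-!
# Local duality: classes inflated from the quotient

A cocycle which vanishes over the field and is not a coboundary pairs non trivially with the
cocycle made of a class with nonzero invariant and a suitable family of vectors.
-/

set_option autoImplicit false
set_option linter.style.haveILetI false
set_option linter.unusedSectionVars false

noncomputable section

open scoped Pointwise

namespace FLTAgent.PoitouTate

open FLTAgent.Lowering.P1 FLTAgent.Lowering.P1.Brauer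

local notation "LL" => AlgebraicClosure ℚ
local notation "GG" => (AlgebraicClosure ℚ ≃ₐ[ℚ] AlgebraicClosure ℚ)
local notation "VS" => ValuationSubring (AlgebraicClosure ℚ)
local notation "Dec" => ValuationSubring.decompositionSubgroup ℚ

variable {p : ℕ} [Fact p.Prime] {A A' : Type} [AddCommGroup A] [Module (ZMod p) A] [AddCommGroup A']
  [Module (ZMod p) A'] [FiniteDimensional (ZMod p) A] [FiniteDimensional (ZMod p) A']
  {ρ : Representation (ZMod p) GG A} {ρ' : Representation (ZMod p) GG A'} {S : Finset Nat.Primes}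

/-- A perfect pairing represents every functional. -/
theorem DualPair.surjective (P : DualPair ρ ρ') : Function.Surjective P.e := by
  have hl : Function.Injective P.e := (injective_iff_map_eq_zero _).2 fun a ha =>
    P.left a fun b => by rw [ha, LinearMap.zero_apply]
  have hr : Function.Injective P.e.flip := (injective_iff_map_eq_zero _).2 fun b hb =>
    P.right b fun a => by rw [← LinearMap.flip_apply P.e, hb, LinearMap.zero_apply]
  have h1 := LinearMap.finrank_le_finrank_of_injective hl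
  have h2 := LinearMap.finrank_le_finrank_of_injective hr
  rw [Subspace.dual_finrank_eq] at h1 h2
  exact (LinearMap.injective_iff_surjective_of_finrank_eq_finrank
    (by rw [Subspace.dual_finrank_eq]; omega)).1 hl

namespace SField

variable (F : SField p S) (W : VS)

/-- A nonzero character of the part in the group of the field. -/
theorem exists_char (hp2 : p ≠ 2) {l : ℕ} (hl : l.Prime) (hW : W.LiesOverPrime l) :
    ∃ β ∈ Z1 (omRep p) (F.Hw W).subtype, β ≠ 0 := by
  obtain ⟨Y, hY⟩ : ∃ Y, Y = Layer.layer hp2 := ⟨_, rfl⟩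
  obtain ⟨n₁, -, hne⟩ := exists_nonzero Y hl hW (F.localSub_Hw W)
  obtain ⟨s, -, χ, -, -⟩ :=
    exists_scaled (fun σ _ τ _ => Y.mul n₁ σ τ) (Brauer.psi_levOn Y n₁) (hne n₁ le_rfl)
  obtain ⟨E, hE, hlev⟩ := χ.red.lev
  refine ⟨fun u => χ.red.ψ u, ⟨⟨E, hE, fun g s hs => hlev g g.2 s s.2 hs⟩, fun g h => ?_⟩,
    fun h => ?_⟩
  · rw [omRep_apply, Subgroup.coe_subtype, F.om_Hw W, one_mul]
    exact χ.red.mul g g.2 h h.2
  · have h1 := congrFun h ⟨χ.red.gen, χ.red.gen_mem⟩
    simp only [χ.red.ψ_gen, Pi.zero_apply] at h1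
    exact one_ne_zero h1

variable (P : DualPair ρ ρ') {l : ℕ} (hl : l.Prime) (hW : W.LiesOverPrime l)

include hl hW in
/-- A cocycle which vanishes over the field and is orthogonal to everything is a coboundary. -/
theorem mem_B1_of_orth (hp2 : p ≠ 2) (hρ : F.Triv ρ) (hρ' : F.Triv ρ') (hcor : F.InvCor W)
    (hnd : ∀ a ∈ Z1 (omRep p) (F.Hw W).subtype,
      (∀ b ∈ Z1 (omRep p) (F.Hw W).subtype, invL p W (F.Hw W)
        (cup (F.Hw W).subtype (LinearMap.mul (ZMod p) (ZMod p)) (omRep p) a b) = 0) → a = 0)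
    {b : ↥(Dec W) → A'} (hb : b ∈ Z1 ρ' (Dec W).subtype)
    (hb0 : ∀ g : ↥(Dec W), (g : GG) ∈ F.N → b g = 0)
    (horth : ∀ a ∈ Z1 ρ (Dec W).subtype,
      invL p W (Dec W) (cup (Dec W).subtype P.e ρ' a b) = 0) :
    b ∈ B1 ρ' (Dec W).subtype := by
  classical
  set f : F.LQuo W → A' := fun x => b x.out with hfdef
  have hbf : ∀ g : ↥(Dec W), b g = f (g : F.LQuo W) := fun g => by
    have h1 : g⁻¹ * (g : F.LQuo W).out ∈ F.N.comap (Dec W).subtype :=
      QuotientGroup.eq.1 (QuotientGroup.out_eq' _).symm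
    have h2 := hb.2 g (g⁻¹ * (g : F.LQuo W).out)
    rw [mul_inv_cancel_left, hb0 (g⁻¹ * (g : F.LQuo W).out) (Subgroup.mem_comap.1 h1), map_zero, add_zero] at h2
    exact h2.symm
  have hfρ : ∀ (x : F.LQuo W) (h : ↥(Dec W)),
      ρ' (x.out : GG) (b h) = f (x * (h : F.LQuo W)) - f x := fun x h => by
    rw [F.apply_out_mul W hρ' hb, hb0 _ (F.uG_mem (Dec W).subtype x h), zero_add]
  let U : Submodule (ZMod p) (F.LQuo W → A') := LinearMap.range
    ((LinearMap.pi fun x : F.LQuo W => (ρ' (x.out : GG) : A' →ₗ[ZMod p] A')).coprod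
      (LinearMap.pi fun _ : F.LQuo W => (LinearMap.id : A' →ₗ[ZMod p] A')))
  by_cases hfU : f ∈ U
  · obtain ⟨⟨a', c'⟩, h⟩ := hfU
    have h' : ∀ x : F.LQuo W, f x = ρ' (x.out : GG) a' + c' := fun x => by rw [← h]; rfl
    have h1 : ((1 : ↥(Dec W)) : F.LQuo W) = 1 := QuotientGroup.mk_one _
    have h0 : (0 : A') = a' + c' := by
      rw [← hb0 1 (one_mem _), hbf, h']
      refine congrArg (· + c') ?_
      exact (F.rho_mk_out (Dec W).subtype hρ' 1 a').trans (by rw [map_one, rho_one])
    refine ⟨a', funext fun g => ?_⟩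
    have h2 := F.rho_mk_out (Dec W).subtype hρ' g a'
    rw [Subgroup.coe_subtype] at h2
    rw [d0_apply, hbf g, h', h2, eq_neg_of_add_eq_zero_right h0.symm, sub_eq_add_neg]
    rfl
  exfalso
  obtain ⟨Λ, hΛf, hΛU⟩ := Submodule.exists_le_ker_of_notMem hfU
  choose η hη using fun x : F.LQuo W => P.surjective
    (om p (x.out : GG) • Λ.comp (LinearMap.single (ZMod p) (fun _ => A') x))
  have hΛ : ∀ k : F.LQuo W → A', Λ k = ∑ x, (om p (x.out : GG))⁻¹ * P.e (η x) (k x) := fun k => by
    conv_lhs => rw [← Finset.univ_sum_single k, map_sum]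
    refine Finset.sum_congr rfl fun x _ => ?_
    rw [hη, LinearMap.smul_apply, smul_eq_mul, inv_mul_cancel_left₀ (om_ne_zero _)]
    rfl
  have hσ : ∑ x : F.LQuo W, ρ (x.out : GG)⁻¹ (η x) = 0 := P.left _ fun a' => by
    rw [map_sum, LinearMap.sum_apply]
    simp only [P.inv_left]
    exact (hΛ fun x => ρ' (x.out : GG) a').symm.trans
      (LinearMap.mem_ker.1 (hΛU ⟨(a', 0), funext fun x => add_zero _⟩))
  have hτ : ∑ x : F.LQuo W, (om p (x.out : GG))⁻¹ • η x = 0 := P.left _ fun c' => by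
    rw [map_sum, LinearMap.sum_apply]
    simp only [map_smul, LinearMap.smul_apply, smul_eq_mul]
    exact (hΛ fun _ => c').symm.trans
      (LinearMap.mem_ker.1 (hΛU ⟨(0, c'), funext fun x => by simp⟩))
  -- a class with nonzero invariant
  obtain ⟨t, ht, htne⟩ : ∃ t ∈ Z2 (omRep p) (F.Hw W).subtype, invL p W (F.Hw W) t ≠ 0 := by
    obtain ⟨β, hβ, hβ0⟩ := F.exists_char W hp2 hl hW
    by_contra hcon
    push Not at hcon
    exact hβ0 (hnd β hβ fun α hα => by rw [F.cup_char W]; exact hcon _ (F.mul_mem_Z2 W hβ hα))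
  obtain ⟨γ, hγl, hγ⟩ := F.exists_primitive W hl hW hp2 ht
    (fun c hc h0 => mem_B2_of_invL_eq_zero hl hW hp2 (F.localSub_Hw W) hc h0) hτ
  obtain ⟨c, hcl, hc⟩ := F.exists_shift_primitive W ht hγl hγ
  set a : ↥(Dec W) → A := fun g => ∑ x : F.LQuo W, ρ (x.out : GG)⁻¹ (c g x) with hadef
  have hreindex : ∀ y : F.LQuo W, ∑ x : F.LQuo W, ρ (x.out : GG)⁻¹ (η (x * y⁻¹)) = 0 := fun y => by
    have e : ∀ x : F.LQuo W, ρ (x.out : GG)⁻¹ (η (x * y⁻¹)) =
        ρ (y.out : GG)⁻¹ (ρ ((x * y⁻¹).out : GG)⁻¹ (η (x * y⁻¹))) := fun x => by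
      have h := F.rho_inv_out_mul (Dec W).subtype hρ (x * y⁻¹) y.out (η (x * y⁻¹))
      simp only [QuotientGroup.out_eq', Subgroup.coe_subtype, inv_mul_cancel_right] at h
      rw [← h, ← rho_mul ρ, inv_mul_cancel, rho_one]
    rw [Finset.sum_congr rfl fun x _ => e x, ← map_sum,
      Fintype.sum_equiv (Equiv.mulRight y⁻¹) (fun x : F.LQuo W => ρ ((x * y⁻¹).out : GG)⁻¹ (η (x * y⁻¹)))
        (fun x => ρ (x.out : GG)⁻¹ (η x)) (fun x => rfl), hσ, map_zero]
  have ha : a ∈ Z1 ρ (Dec W).subtype := by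
    refine ⟨?_, fun g h => ?_⟩
    · obtain ⟨E, hE, hlev⟩ := hcl
      exact ⟨E, hE, fun g s hs => by simp only [hadef, hlev g s hs]⟩
    · have e : ρ (g : GG) (a h) = ∑ x : F.LQuo W, ρ (x.out : GG)⁻¹ (c h (x * (g : F.LQuo W))) := by
        rw [hadef, map_sum]
        refine (Fintype.sum_equiv (Equiv.mulRight (g : F.LQuo W)) _ _ fun x => ?_).symm
        rw [Equiv.coe_mulRight]
        exact (F.rho_inv_out_mul (Dec W).subtype hρ x g _).symm
      rw [Subgroup.coe_subtype, e, eq_comm, ← sub_eq_zero]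
      have e2 : a g + ∑ x : F.LQuo W, ρ (x.out : GG)⁻¹ (c h (x * (g : F.LQuo W))) - a (g * h) =
          ∑ y : F.LQuo W, t (F.uH W y g) (F.uH W (y * (g : F.LQuo W)) h) •
            ∑ x : F.LQuo W, ρ (x.out : GG)⁻¹ (η (x * y⁻¹)) := by
        simp only [hadef, Finset.smul_sum]
        rw [Finset.sum_comm, ← Finset.sum_add_distrib, ← Finset.sum_sub_distrib]
        refine Finset.sum_congr rfl fun x _ => ?_
        simp only [← map_smul, ← map_add, ← map_sub, ← map_sum]
        exact congrArg _ ((by abel : c g x + c h (x * (g : F.LQuo W)) - c (g * h) x =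
          c h (x * (g : F.LQuo W)) - c (g * h) x + c g x).trans (hc g h x))
      rw [e2]
      simp only [hreindex, smul_zero, Finset.sum_const_zero]
  set E : ZMod p := ∑ x : F.LQuo W, (om p (x.out : GG))⁻¹ * P.e (η x) (f x) with hEdef
  set C : ↥(Dec W) → ZMod p := fun g =>
    ∑ x : F.LQuo W, (om p (x.out : GG))⁻¹ * P.e (c g x) (f (x * (g : F.LQuo W))) with hCdef
  have hC : C ∈ C1 (Dec W).subtype (p := p) := by
    obtain ⟨M, hM, hlev⟩ := hcl
    haveI := F.fd
    refine ⟨M ⊔ F.K, inferInstance, fun g s hs => ?_⟩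
    simp only [hCdef, hlev g s (IntermediateField.fixingSubgroup_antitone le_sup_left hs),
      F.mk_mul_mem (Dec W).subtype g (IntermediateField.fixingSubgroup_antitone le_sup_right hs)]
  have key : cup (Dec W).subtype P.e ρ' a b =
      E • F.cor2 W t - d1 (omRep p) (Dec W).subtype C := by
    funext g h
    have h1 : omRep p (g : GG) (C h) = ∑ x : F.LQuo W, (om p (x.out : GG))⁻¹ *
        P.e (c h (x * (g : F.LQuo W))) (f (x * ((g * h : ↥(Dec W)) : F.LQuo W))) := by
      rw [omRep_apply, hCdef, Finset.mul_sum]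
      refine (Fintype.sum_equiv (Equiv.mulRight (g : F.LQuo W)) _ _ fun x => ?_).symm
      have e := F.om_out_mul (Dec W).subtype x g
      simp only [Subgroup.coe_subtype] at e
      rw [Equiv.coe_mulRight, e, QuotientGroup.mk_mul, mul_assoc x]
      field_simp [om_ne_zero (p := p) (g : GG)]
    have h2 : P.e (a g) (ρ' (g : GG) (b h)) = ∑ x : F.LQuo W,
        (om p (x.out : GG))⁻¹ * P.e (c g x) (ρ' (x.out : GG) (ρ' (g : GG) (b h))) := by
      rw [hadef, map_sum, LinearMap.sum_apply]
      exact Finset.sum_congr rfl fun x _ => P.inv_left _ _ _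
    have h3 : E * F.cor2 W t g h = ∑ x : F.LQuo W, (om p (x.out : GG))⁻¹ *
        P.e (F.shiftC W t η g h x) (f (x * ((g * h : ↥(Dec W)) : F.LQuo W))) := by
      simp only [SField.shiftC, map_sum, map_smul, LinearMap.sum_apply, LinearMap.smul_apply,
        smul_eq_mul, Finset.mul_sum, cor2]
      rw [Finset.sum_comm]
      refine Finset.sum_congr rfl fun y _ => ?_
      rw [← Fintype.sum_equiv (Equiv.mulRight y) (fun x : F.LQuo W =>
        (om p ((x * y).out : GG))⁻¹ * (t (F.uH W y g) (F.uH W (y * (g : F.LQuo W)) h) *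
          P.e (η x) (f (x * y * ((g * h : ↥(Dec W)) : F.LQuo W))))) _ fun x => by
        simp only [Equiv.coe_mulRight, mul_inv_cancel_right]]
      set T := t (F.uH W y g) (F.uH W (y * (g : F.LQuo W)) h)
      set z := y * ((g * h : ↥(Dec W)) : F.LQuo W) with hz
      have e : ∀ x : F.LQuo W, (om p (x.out : GG))⁻¹ * P.e (η x) (f (x * z)) =
          (om p (x.out : GG))⁻¹ * P.e (η x) (f x) +
            (om p (x.out : GG))⁻¹ * P.e (η x) (ρ' (x.out : GG) (b z.out)) := fun x => by
        rw [hfρ, QuotientGroup.out_eq', map_sub]; ring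
      have hzero : ∑ x : F.LQuo W, (om p (x.out : GG))⁻¹ *
          P.e (η x) (ρ' (x.out : GG) (b z.out)) = 0 := by
        simp only [← P.inv_left, ← LinearMap.sum_apply, ← map_sum, hσ, map_zero, LinearMap.zero_apply]
      have e' : ∑ x : F.LQuo W, (om p (x.out : GG))⁻¹ * P.e (η x) (f (x * z)) = E := by
        rw [Finset.sum_congr rfl fun x _ => e x, Finset.sum_add_distrib, hzero, add_zero]
      rw [← e', Finset.sum_mul]
      refine Finset.sum_congr rfl fun x _ => ?_
      have e3 := F.om_out_mul (Dec W).subtype x y.out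
      simp only [Subgroup.coe_subtype, QuotientGroup.out_eq'] at e3
      rw [mul_assoc x, ← hz, e3, mul_inv]
      ring
    simp only [Pi.sub_apply, Pi.smul_apply, smul_eq_mul, d1_apply, Subgroup.coe_subtype, cup, h1,
      h2, h3]
    simp only [hCdef]
    rw [← Finset.sum_sub_distrib, ← Finset.sum_add_distrib, ← Finset.sum_sub_distrib]
    refine Finset.sum_congr rfl fun x _ => ?_
    rw [F.rho_out_mul_out W hρ' x g, hfρ, ← hc g h x, QuotientGroup.mk_mul, ← mul_assoc x]
    simp only [map_add, map_sub, LinearMap.add_apply, LinearMap.sub_apply]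
    ring
  have hcorZ := F.cor2_mem_Z2 W ht
  have h2 := horth a ha
  rw [key, invL_congr hp2 hl hW localSub_self (Submodule.smul_mem _ E hcorZ)
    (by rw [sub_sub_cancel_left]; exact Submodule.neg_mem _ ⟨C, hC, rfl⟩),
    invL_smul hp2 hl hW localSub_self E hcorZ, hcor t ht, mul_eq_zero, or_iff_left htne, hEdef,
    ← hΛ] at h2
  exact hΛf h2

end SField

end FLTAgent.PoitouTate
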