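import Fermat.Agent.PoitouTate.Targets
import Fermat.Agent.PoitouTate.Values

/-!
# Systems of places of the field with prescribed representatives
-/

set_option autoImplicit false
set_option linter.style.haveILetI false

noncomputable section

open scoped Pointwise

namespace FLTAgent.PoitouTate

open FLTAgent.Lowering.P1 FLTAgent.Lowering.P1.Brauer FLTAgent.Lowering.P1.Hasse
open Loc (SameOrbit)

local notation "LL" => AlgebraicClosure ℚ
local notation "GG" => (AlgebraicClosure ℚ ≃ₐ[ℚ] AlgebraicClosure ℚ)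
local notation "VS" => ValuationSubring (AlgebraicClosure ℚ)
local notation "Dec" => ValuationSubring.decompositionSubgroup ℚ

variable {p : ℕ} [Fact p.Prime] {S : Finset Nat.Primes} (F : SField p S)

theorem exists_splaces_single {W : VS} (hW : ∃ q ∈ S, W.LiesOverPrime (q : ℕ)) :
    ∃ R : Finset VS, SPlaces F R ∧ W ∈ R := by
  obtain ⟨R, hR, hsub⟩ := exists_splaces F {W} (fun U hU => by
    rw [Finset.mem_singleton] at hU; exact hU ▸ hW) (fun V hV U hU _ => by
    rw [Finset.mem_singleton] at hV hU; rw [hV, hU])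
  exact ⟨R, hR, hsub (Finset.mem_singleton_self W)⟩

theorem not_sameOrbit_smul {V : VS} {γ : GG} (h : γ ∉ Dec V ⊔ F.N) : ¬ SameOrbit F.N V (γ • V) := by
  rintro ⟨σ, hσ, hσV⟩
  refine h ?_
  have hd : σ⁻¹ * γ ∈ Dec V := by
    show (σ⁻¹ * γ) • V = V
    rw [mul_smul, ← hσV, inv_smul_smul]
  rw [show γ = σ * (σ⁻¹ * γ) by group]
  exact mul_mem ((le_sup_right : F.N ≤ Dec V ⊔ F.N) hσ) ((le_sup_left : Dec V ≤ Dec V ⊔ F.N) hd)

theorem exists_splaces_pair {q : Nat.Primes} (hq : q ∈ S) {V : VS} (hV : V.LiesOverPrime (q : ℕ))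
    {γ : GG} (h : γ ∉ Dec V ⊔ F.N) :
    ∃ R : Finset VS, SPlaces F R ∧ V ∈ R ∧ γ • V ∈ R := by
  classical
  obtain ⟨R, hR, hsub⟩ := exists_splaces F {V, γ • V} (fun U hU => by
    rcases Finset.mem_insert.1 hU with rfl | hU
    · exact ⟨q, hq, hV⟩
    · rw [Finset.mem_singleton] at hU
      exact ⟨q, hq, hU ▸ Places.liesOverPrime_smul _ _ hV⟩) (fun U hU W hW hUW => by
    have hns := not_sameOrbit_smul F h
    simp only [Finset.mem_insert, Finset.mem_singleton] at hU hW
    rcases hU with rfl | rfl <;> rcases hW with rfl | rfl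
    · rfl
    · exact absurd hUW hns
    · exact absurd (sameOrbit_symm hUW) hns
    · rfl)
  exact ⟨R, hR, hsub (Finset.mem_insert_self _ _),
    hsub (Finset.mem_insert_of_mem (Finset.mem_singleton_self _))⟩

end FLTAgent.PoitouTate
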