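import Fermat.Agent.PoitouTate.LocalDual.Kernel
import Fermat.Agent.PoitouTate.LocalDual.Places

/-!
# Local duality in degree one

From the arithmetic of trivial coefficients over the field and the invariance of the invariant
under transfer.
-/

set_option autoImplicit false

noncomputable section

open scoped Pointwise

namespace FLTAgent.PoitouTate

open FLTAgent.Lowering.P1 FLTAgent.Lowering.P1.Brauer

local notation "VS" => ValuationSubring (AlgebraicClosure ℚ)

/-- Local duality, from the field and the transfer. -/
theorem targetLocalDual_of_invCor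
    (hcor : ∀ (p : ℕ) [Fact p.Prime], p ≠ 2 → ∀ (S : Finset Nat.Primes) (F : SField p S) (W : VS)
      (l : ℕ), l.Prime → W.LiesOverPrime l → F.InvCor W) :
    TargetLocalDual := by
  intro hfield p _ hp2 S hpS F A A' _ _ _ _ _ _ ρ ρ' P hρ hρ' q hq W hW b hb horth
  obtain ⟨R, hR, hWR⟩ := exists_splaces_single F ⟨q, hq, hW⟩
  have hnd := (hfield p hp2 S hpS F R hR).localNondeg W hWR
  have hc := hcor p hp2 S F W q q.2 hW
  exact F.mem_B1_of_orth W P q.2 hW hp2 hρ hρ' hc hnd hb
    (fun g hg => F.eq_zero_of_orth W P q.2 hW hp2 hρ hρ' hc hnd hb horth g hg) horth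

end FLTAgent.PoitouTate
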