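import Fermat.Agent.PoitouTate.LocalDual.Transversal

/-!
# Local duality: classes which do not vanish over the field

A cocycle whose restriction to the part in the group of the field is not zero pairs non trivially
with a transfer of a character of that part.
-/

set_option autoImplicit false
set_option linter.style.haveILetI false
set_option linter.unusedSectionVars false

noncomputable section

open scoped Pointwise

namespace FLTAgent.PoitouTate

open FLTAgent.Lowering.P1 FLTAgent.Lowering.P1.Brauer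

local notation "LL" => AlgebraicClosure ℚ
local notation "GG" => (AlgebraicClosure ℚ ≃ₐ[ℚ] AlgebraicClosure ℚ)
local notation "VS" => ValuationSubring (AlgebraicClosure ℚ)
local notation "Dec" => ValuationSubring.decompositionSubgroup ℚ

variable {p : ℕ} [Fact p.Prime] {A A' : Type} [AddCommGroup A] [Module (ZMod p) A] [AddCommGroup A']
  [Module (ZMod p) A'] {ρ : Representation (ZMod p) GG A} {ρ' : Representation (ZMod p) GG A'}
  {S : Finset Nat.Primes}

namespace SField

variable (F : SField p S) (W : VS)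

theorem levC_comb {α β : Type} {f : ↥(F.Hw W) → α} (hf : LevC (F.Hw W).subtype f)
    (Φ : (F.LQuo W → α) → F.LQuo W → β) :
    LevC (Dec W).subtype fun g : ↥(Dec W) => Φ (fun x => f (F.uH W x g)) (g : F.LQuo W) := by
  obtain ⟨E, hE, hE'⟩ := hf
  obtain ⟨M, hM, hM'⟩ := F.exists_level W E
  refine ⟨M, hM, fun g s hs => ?_⟩
  dsimp only
  rw [(hM' 1 g s hs).1]
  refine congrArg (fun v => Φ v (g : F.LQuo W)) (funext fun x => ?_)
  obtain ⟨-, s', hs', e⟩ := hM' x g s hs
  rw [e]
  exact hE' _ _ hs'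

theorem om_Hw (u : ↥(F.Hw W)) : om p (u : GG) = 1 := F.zeta _ (Subgroup.mem_inf.1 u.2).1

theorem coe_uH_mul_out (x : F.LQuo W) (g : ↥(Dec W)) :
    (x.out : GG) * g = (F.uH W x g : GG) * ((x * (g : F.LQuo W)).out : ↥(Dec W)) := by
  rw [coe_uH]
  exact (congrArg Subtype.val (F.uG_mul_out (Dec W).subtype x g)).symm

/-- A cocycle at the product of a component and a representative. -/
theorem apply_out_mul (hρ' : F.Triv ρ') {b : ↥(Dec W) → A'} (hb : b ∈ Z1 ρ' (Dec W).subtype)
    (x : F.LQuo W) (h : ↥(Dec W)) :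
    ρ' (x.out : GG) (b h) = b (F.uG (Dec W).subtype x h) + b (x * (h : F.LQuo W)).out - b x.out := by
  have h1 := hb.2 x.out h
  have h2 := hb.2 (F.uG (Dec W).subtype x h) (x * (h : F.LQuo W)).out
  rw [F.uG_mul_out, hρ' _ (F.uG_mem (Dec W).subtype x h), LinearMap.id_apply] at h2
  rw [Subgroup.coe_subtype] at h1
  rw [← h2, h1]
  abel

theorem rho_out_mul_out (hρ : F.Triv ρ) (x : F.LQuo W) (g : ↥(Dec W)) (a : A) :
    ρ (x.out : GG) (ρ (g : GG) a) = ρ ((x * (g : F.LQuo W)).out : ↥(Dec W)) a := by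
  have h := F.rho_out_mul (Dec W).subtype hρ x g a
  simp only [Subgroup.coe_subtype] at h
  exact h.symm

/-- The product of two characters of the part in the group of the field. -/
theorem mul_mem_Z2 {α β : ↥(F.Hw W) → ZMod p} (hα : α ∈ Z1 (omRep p) (F.Hw W).subtype)
    (hβ : β ∈ Z1 (omRep p) (F.Hw W).subtype) :
    (fun u v => α u * β v) ∈ Z2 (omRep p) (F.Hw W).subtype := by
  obtain ⟨⟨E, hE, hlα⟩, hcα⟩ := hα
  obtain ⟨⟨E', hE', hlβ⟩, hcβ⟩ := hβ
  refine ⟨⟨E ⊔ E', inferInstance, fun g h s t hs ht => ?_⟩, fun g h j => ?_⟩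
  · dsimp only
    rw [hlα g s (IntermediateField.fixingSubgroup_antitone le_sup_left hs),
      hlβ h t (IntermediateField.fixingSubgroup_antitone le_sup_right ht)]
  · simp only [omRep_apply, Subgroup.coe_subtype, hcα, hcβ, F.om_Hw W, one_mul]
    ring

theorem cup_char {α β : ↥(F.Hw W) → ZMod p} :
    cup (F.Hw W).subtype (LinearMap.mul (ZMod p) (ZMod p)) (omRep p) α β =
      fun u v => α u * β v := by
  funext u v
  simp [cup, omRep_apply, F.om_Hw W]

variable (P : DualPair ρ ρ') {l : ℕ} (hl : l.Prime) (hW : W.LiesOverPrime l)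

include hl hW in
/-- A cocycle which is not zero over the field is not orthogonal. -/
theorem eq_zero_of_orth (hp2 : p ≠ 2) (hρ : F.Triv ρ) (hρ' : F.Triv ρ') (hcor : F.InvCor W)
    (hnd : ∀ a ∈ Z1 (omRep p) (F.Hw W).subtype,
      (∀ b ∈ Z1 (omRep p) (F.Hw W).subtype, invL p W (F.Hw W)
        (cup (F.Hw W).subtype (LinearMap.mul (ZMod p) (ZMod p)) (omRep p) a b) = 0) → a = 0)
    {b : ↥(Dec W) → A'} (hb : b ∈ Z1 ρ' (Dec W).subtype)
    (horth : ∀ a ∈ Z1 ρ (Dec W).subtype,
      invL p W (Dec W) (cup (Dec W).subtype P.e ρ' a b) = 0)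
    (g : ↥(Dec W)) (hg : (g : GG) ∈ F.N) : b g = 0 := by
  classical
  refine P.right _ fun η => ?_
  set β : ↥(F.Hw W) → ZMod p := fun u => P.e η (b ⟨u, (Subgroup.mem_inf.1 u.2).2⟩) with hβdef
  have hbH : ∀ u v : ↥(F.Hw W), β (u * v) = β u + β v := fun u v => by
    simp only [hβdef, ← map_add]
    refine congrArg _ ((hb.2 ⟨u, (Subgroup.mem_inf.1 u.2).2⟩ ⟨v, (Subgroup.mem_inf.1 v.2).2⟩).trans ?_)
    rw [Subgroup.coe_subtype, hρ' _ (Subgroup.mem_inf.1 u.2).1, LinearMap.id_apply]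
  have hβ : β ∈ Z1 (omRep p) (F.Hw W).subtype := by
    obtain ⟨E, hE, hlev⟩ := hb.1
    refine ⟨⟨E, hE, fun u s hs => ?_⟩, fun u v => ?_⟩
    · exact congrArg (fun y => P.e η y) (hlev ⟨u, (Subgroup.mem_inf.1 u.2).2⟩
        ⟨s, (Subgroup.mem_inf.1 s.2).2⟩ hs)
    · rw [hbH, omRep_apply, Subgroup.coe_subtype, F.om_Hw W, one_mul]
  suffices h0 : β = 0 from congrFun h0 ⟨g, Subgroup.mem_inf.2 ⟨hg, g.2⟩⟩
  refine hnd β hβ fun α hα => ?_
  have hα' : ∀ u v : ↥(F.Hw W), α (u * v) = α u + α v := fun u v => by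
    rw [hα.2, omRep_apply, Subgroup.coe_subtype, F.om_Hw W, one_mul]
  -- the transfer of the character
  set a : ↥(Dec W) → A := fun g => ∑ x : F.LQuo W, α (F.uH W x g) • ρ (x.out : GG)⁻¹ η with hadef
  have ha : a ∈ Z1 ρ (Dec W).subtype := by
    refine ⟨F.levC_comb W hα.1 fun v _ => ∑ x : F.LQuo W, v x • ρ (x.out : GG)⁻¹ η,
      fun g h => ?_⟩
    simp only [hadef, map_sum, map_smul, F.uH_mul, hα', add_smul, Finset.sum_add_distrib]
    refine congrArg₂ (· + ·) rfl (Fintype.sum_equiv (Equiv.mulRight (g : F.LQuo W)) _ _ fun x => ?_)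
    rw [Equiv.coe_mulRight]
    exact congrArg _ (F.rho_inv_out_mul (Dec W).subtype hρ x g η).symm
  set φ : F.LQuo W → ZMod p := fun y => P.e η (b y.out) with hφdef
  set C : ↥(Dec W) → ZMod p := fun g =>
    ∑ x : F.LQuo W, (om p (x.out : GG))⁻¹ * α (F.uH W x g) * φ (x * (g : F.LQuo W)) with hCdef
  have hC : C ∈ C1 (Dec W).subtype (p := p) :=
    F.levC_comb W hα.1 fun v y => ∑ x : F.LQuo W, (om p (x.out : GG))⁻¹ * v x * φ (x * y)
  have key : cup (Dec W).subtype P.e ρ' a b =
      F.cor2 W (fun u v => α u * β v) - d1 (omRep p) (Dec W).subtype C := by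
    funext g h
    have h1 : omRep p (g : GG) (C h) = ∑ x : F.LQuo W, (om p (x.out : GG))⁻¹ *
        α (F.uH W (x * (g : F.LQuo W)) h) * φ (x * ((g * h : ↥(Dec W)) : F.LQuo W)) := by
      rw [omRep_apply, hCdef, Finset.mul_sum]
      refine (Fintype.sum_equiv (Equiv.mulRight (g : F.LQuo W)) _ _ fun x => ?_).symm
      have e := F.om_out_mul (Dec W).subtype x g
      simp only [Subgroup.coe_subtype] at e
      rw [Equiv.coe_mulRight, e, QuotientGroup.mk_mul, mul_assoc x]
      field_simp [om_ne_zero (p := p) (g : GG)]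
    have h2 : P.e (a g) (ρ' (g : GG) (b h)) = ∑ x : F.LQuo W,
        α (F.uH W x g) * ((om p (x.out : GG))⁻¹ * P.e η (ρ' (x.out : GG) (ρ' (g : GG) (b h)))) := by
      rw [hadef, map_sum, LinearMap.sum_apply]
      refine Finset.sum_congr rfl fun x _ => ?_
      rw [map_smul, LinearMap.smul_apply, P.inv_left, smul_eq_mul]
    simp only [Pi.sub_apply, d1_apply, Subgroup.coe_subtype, cup, h1, h2]
    simp only [cor2, hCdef]
    rw [← Finset.sum_sub_distrib, ← Finset.sum_add_distrib, ← Finset.sum_sub_distrib]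
    refine Finset.sum_congr rfl fun x _ => ?_
    rw [F.rho_out_mul_out W hρ' x g, F.apply_out_mul W hρ' hb, F.uH_mul, hα', map_sub, map_add,
      QuotientGroup.mk_mul, ← mul_assoc x]
    have e : P.e η (b (F.uG (Dec W).subtype (x * (g : F.LQuo W)) h)) =
        β (F.uH W (x * (g : F.LQuo W)) h) := rfl
    rw [e]
    simp only [hφdef]
    ring
  have hαβ := F.mul_mem_Z2 W hα hβ
  have hβα := F.mul_mem_Z2 W hβ hα
  have h2 := horth a ha
  rw [key, invL_congr hp2 hl hW localSub_self (F.cor2_mem_Z2 W hαβ)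
    (by rw [sub_sub_cancel_left]; exact Submodule.neg_mem _ ⟨C, hC, rfl⟩), hcor _ hαβ] at h2
  have h3 : invL p W (F.Hw W) ((fun u v => α u * β v) + fun u v => β u * α v) = 0 := by
    refine invL_B2 hp2 hl hW (F.localSub_Hw W) ⟨fun u => -(α u * β u), ?_, ?_⟩
    · obtain ⟨E, hE, hlα⟩ := hα.1
      obtain ⟨E', hE', hlβ⟩ := hβ.1
      refine ⟨E ⊔ E', inferInstance, fun g s hs => ?_⟩
      dsimp only
      rw [hlα g s (IntermediateField.fixingSubgroup_antitone le_sup_left hs),
        hlβ g s (IntermediateField.fixingSubgroup_antitone le_sup_right hs)]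
    · funext u v
      simp only [d1_apply, omRep_apply, Subgroup.coe_subtype, F.om_Hw W, Pi.add_apply, hα', hbH]
      ring
  rw [invL_add hp2 hl hW (F.localSub_Hw W) hαβ hβα, h2, zero_add] at h3
  rw [F.cup_char W]
  exact h3

end SField

end FLTAgent.PoitouTate
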