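import Fermat.Agent.PoitouTate.Detect
import Fermat.Agent.PoitouTate.LocalDual.Restricted

/-!
# The coinduced two cocycle of a family of vectors

A two cocycle of the part in the group of the field with a family of vectors indexed by the
quotient gives a two cocycle of the decomposition group with values in the coinduced module, and
it is the coboundary of an explicit one cochain once the weighted sum of the family vanishes.
-/

set_option autoImplicit false
set_option linter.style.haveILetI false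
set_option linter.unusedSectionVars false

noncomputable section

open scoped Pointwise

namespace FLTAgent.PoitouTate

open FLTAgent.Lowering.P1 FLTAgent.Lowering.P1.Brauer

local notation "LL" => AlgebraicClosure ℚ
local notation "GG" => (AlgebraicClosure ℚ ≃ₐ[ℚ] AlgebraicClosure ℚ)
local notation "VS" => ValuationSubring (AlgebraicClosure ℚ)
local notation "Dec" => ValuationSubring.decompositionSubgroup ℚ

variable {p : ℕ} [Fact p.Prime] {A : Type} [AddCommGroup A] [Module (ZMod p) A]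
  {S : Finset Nat.Primes}

namespace SField

variable (F : SField p S) (W : VS) (t : ↥(F.Hw W) → ↥(F.Hw W) → ZMod p) (η : F.LQuo W → A)

/-- The coinduced two cochain. -/
def shiftC (g h : ↥(Dec W)) (x : F.LQuo W) : A :=
  ∑ y : F.LQuo W, t (F.uH W y g) (F.uH W (y * (g : F.LQuo W)) h) • η (x * y⁻¹)

variable {t η}

theorem shiftC_cocycle (ht : t ∈ Z2 (omRep p) (F.Hw W).subtype) (g h j : ↥(Dec W))
    (x : F.LQuo W) :
    F.shiftC W t η h j (x * (g : F.LQuo W)) - F.shiftC W t η (g * h) j x +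
      F.shiftC W t η g (h * j) x - F.shiftC W t η g h x = 0 := by
  have e : F.shiftC W t η h j (x * (g : F.LQuo W)) = ∑ y : F.LQuo W,
      t (F.uH W (y * (g : F.LQuo W)) h)
        (F.uH W (y * (g : F.LQuo W) * (h : F.LQuo W)) j) • η (x * y⁻¹) := by
    refine (Fintype.sum_equiv (Equiv.mulRight (g : F.LQuo W)) _ _ fun y => ?_).symm
    rw [Equiv.coe_mulRight, show x * (g : F.LQuo W) * (y * (g : F.LQuo W))⁻¹ = x * y⁻¹ by group]
  rw [e]
  simp only [shiftC, ← Finset.sum_sub_distrib, ← Finset.sum_add_distrib, ← sub_smul, ← add_smul]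
  exact Finset.sum_eq_zero fun y _ => by rw [F.cocycle_uH W ht, zero_smul]

theorem om_inv_out (x : F.LQuo W) :
    om p ((x⁻¹).out : GG) = (om p (x.out : GG))⁻¹ := by
  have h := F.om_out_mul (Dec W).subtype x⁻¹ x.out
  simp only [Subgroup.coe_subtype, QuotientGroup.out_eq', inv_mul_cancel] at h
  refine eq_inv_of_mul_eq_one_left (h.symm.trans ?_)
  have h1 : ((1 : F.LQuo W).out : F.LQuo W) = 1 := QuotientGroup.out_eq' _
  exact F.zeta _ (Subgroup.mem_comap.1 ((QuotientGroup.eq_one_iff _).1 h1))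

variable {l : ℕ} (hl : l.Prime) (hW : W.LiesOverPrime l)

include hl hW in
/-- The translates of a cocycle by a representative are its multiples by the character. -/
theorem exists_translate (hp2 : p ≠ 2) (ht : t ∈ Z2 (omRep p) (F.Hw W).subtype)
    (hdet : ∀ c ∈ Z2 (omRep p) (F.Hw W).subtype, invL p W (F.Hw W) c = 0 →
      c ∈ B2 (omRep p) (F.Hw W).subtype) (y : F.LQuo W) :
    ∃ u ∈ C1 (F.Hw W).subtype (p := p), ∀ (g h : ↥(Dec W)), ∀ (hg : (g : GG) ∈ F.N)
      (hh : (h : GG) ∈ F.N), t (F.uH W y g) (F.uH W y h) =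
        om p (y.out : GG) * t ⟨g, Subgroup.mem_inf.2 ⟨hg, g.2⟩⟩ ⟨h, Subgroup.mem_inf.2 ⟨hh, h.2⟩⟩ +
          d1 (omRep p) (F.Hw W).subtype u ⟨g, Subgroup.mem_inf.2 ⟨hg, g.2⟩⟩
            ⟨h, Subgroup.mem_inf.2 ⟨hh, h.2⟩⟩ := by
  set e : GG := (y.out : GG) with he
  have heD : e • W = W := (y.out).2
  have hconj : ∀ g : GG, g ∈ F.Hw W ↔ e⁻¹⁻¹ * g * e⁻¹ ∈ F.Hw W := fun g => by
    rw [inv_inv, Subgroup.mem_inf, Subgroup.mem_inf]
    refine and_congr ⟨fun h => SField.instNormal F |>.conj_mem g h e, fun h => ?_⟩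
      ⟨fun h => mul_mem (mul_mem (y.out).2 h) (inv_mem (y.out).2), fun h => ?_⟩
    · simpa [mul_assoc] using SField.instNormal F |>.conj_mem _ h e⁻¹
    · have h' := mul_mem (mul_mem (inv_mem (y.out).2) h) (y.out).2
      rwa [← he, show e⁻¹ * (e * g * e⁻¹) * e = g by group] at h'
  set c : ↥(F.Hw W) → ↥(F.Hw W) → ZMod p := fun g h =>
    t ⟨e * g * e⁻¹, by simpa using (hconj g).1 g.2⟩ ⟨e * h * e⁻¹, by simpa using (hconj h).1 h.2⟩
  have hc : c ∈ Z2 (omRep p) (F.Hw W).subtype := by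
    let f : ↥(F.Hw W) →* ↥(F.Hw W) :=
      { toFun := fun g => ⟨e * g * e⁻¹, by simpa using (hconj g).1 g.2⟩
        map_one' := Subtype.ext (by simp)
        map_mul' := fun g h => Subtype.ext (by simp [mul_assoc]) }
    obtain ⟨⟨E, hE, hlev⟩, hcoc⟩ := ht
    obtain ⟨M, hM, hMn, hle⟩ := exists_normal_le E
    refine ⟨⟨M, hM, fun g h a b ha hb => ?_⟩, fun g h j => ?_⟩
    · show t (f (g * a)) (f (h * b)) = t (f g) (f h)
      rw [map_mul, map_mul]
      refine hlev _ _ _ _ ?_ ?_ <;> refine IntermediateField.fixingSubgroup_antitone hle ?_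
      · simpa [f] using fix_conj ha e⁻¹
      · simpa [f] using fix_conj hb e⁻¹
    · show omRep p (g : GG) (t (f h) (f j)) - t (f (g * h)) (f j) + t (f g) (f (h * j)) -
        t (f g) (f h) = 0
      have h1 := hcoc (f g) (f h) (f j)
      rw [map_mul, map_mul]
      simp only [omRep_apply, Subgroup.coe_subtype, F.om_Hw W] at h1 ⊢
      exact h1
  -- conjugation multiplies the invariant by the character
  have h2 := invL_conj hp2 hl hW e⁻¹ (F.localSub_Hw W) hconj ht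
  rw [inv_smul_eq_iff.2 heD.symm] at h2
  have h3 : invL p W (F.Hw W) c = om p e * invL p W (F.Hw W) t := by
    rw [← h2, show (fun g h : ↥(F.Hw W) => om p e⁻¹ * t ⟨e⁻¹⁻¹ * g * e⁻¹, (hconj g).1 g.2⟩
      ⟨e⁻¹⁻¹ * h * e⁻¹, (hconj h).1 h.2⟩) = om p e⁻¹ • c from funext fun g => funext fun h => by
        simp only [c, inv_inv, Pi.smul_apply, smul_eq_mul],
      invL_smul hp2 hl hW (F.localSub_Hw W) _ hc, om_inv, mul_inv_cancel_left₀ (om_ne_zero e)]
  have h4 : c - om p e • t ∈ B2 (omRep p) (F.Hw W).subtype := by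
    refine hdet _ (Submodule.sub_mem _ hc (Submodule.smul_mem _ _ ht)) ?_
    rw [sub_eq_add_neg, ← neg_smul, invL_add hp2 hl hW (F.localSub_Hw W) hc
      (Submodule.smul_mem _ _ ht), invL_smul hp2 hl hW (F.localSub_Hw W) _ ht, h3, neg_mul,
      add_neg_cancel]
  obtain ⟨u, hu, hue⟩ := h4
  refine ⟨u, hu, fun g h hg hh => ?_⟩
  have h5 := congrFun (congrFun hue ⟨g, Subgroup.mem_inf.2 ⟨hg, g.2⟩⟩)
    ⟨h, Subgroup.mem_inf.2 ⟨hh, h.2⟩⟩
  rw [h5]
  simp only [Pi.sub_apply, Pi.smul_apply, smul_eq_mul, add_sub_cancel]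
  simp only [c]
  congr 1 <;> refine Subtype.ext ?_
  · rw [coe_uH, F.uG_mem_apply _ _ hg]; rfl
  · rw [coe_uH, F.uG_mem_apply _ _ hh]; rfl

include hl hW in
/-- Over the field the component at the origin of the coinduced cocycle is a coboundary. -/
theorem exists_primitive (hp2 : p ≠ 2) (ht : t ∈ Z2 (omRep p) (F.Hw W).subtype)
    (hdet : ∀ c ∈ Z2 (omRep p) (F.Hw W).subtype, invL p W (F.Hw W) c = 0 →
      c ∈ B2 (omRep p) (F.Hw W).subtype)
    (hη : ∑ x : F.LQuo W, (om p (x.out : GG))⁻¹ • η x = 0) :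
    ∃ γ ∈ C1 (F.Hw W).subtype (p := p) (A := A), ∀ (g h : ↥(Dec W)) (hg : (g : GG) ∈ F.N)
      (hh : (h : GG) ∈ F.N), F.shiftC W t η g h 1 =
        γ ⟨h, Subgroup.mem_inf.2 ⟨hh, h.2⟩⟩ -
          γ (⟨g, Subgroup.mem_inf.2 ⟨hg, g.2⟩⟩ * ⟨h, Subgroup.mem_inf.2 ⟨hh, h.2⟩⟩) +
          γ ⟨g, Subgroup.mem_inf.2 ⟨hg, g.2⟩⟩ := by
  choose u hu hue using fun y => F.exists_translate W hl hW hp2 ht hdet y
  refine ⟨∑ y : F.LQuo W, fun g => u y g • η y⁻¹, Submodule.sum_mem _ fun y _ => ?_,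
    fun g h hg hh => ?_⟩
  · obtain ⟨E, hE, hl'⟩ := hu y
    exact ⟨E, hE, fun a s hs => by dsimp only; rw [hl' a s hs]⟩
  have hη' : ∑ y : F.LQuo W, om p (y.out : GG) • η y⁻¹ = 0 := by
    rw [← hη]
    refine Fintype.sum_equiv (Equiv.inv _) _ _ fun y => ?_
    rw [Equiv.inv_apply, F.om_inv_out W, inv_inv]
  simp only [shiftC, one_mul, Finset.sum_apply, ← Finset.sum_sub_distrib, ← Finset.sum_add_distrib]
  have hgy : ∀ y : F.LQuo W, y * (g : F.LQuo W) = y := fun y => by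
    rw [(QuotientGroup.eq_one_iff g).2 (Subgroup.mem_comap.2 hg), mul_one]
  simp only [hgy, hue _ g h hg hh, d1_apply, omRep_apply, Subgroup.coe_subtype, F.zeta g hg,
    one_mul, add_smul, sub_smul, Finset.sum_add_distrib, ← smul_smul, mul_comm (om p _) (t _ _)]
  rw [← Finset.smul_sum, hη', smul_zero, zero_add, Finset.sum_sub_distrib]

/-- The coboundary equation of the explicit one cochain. -/
theorem exists_shift_primitive (ht : t ∈ Z2 (omRep p) (F.Hw W).subtype)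
    {γ : ↥(F.Hw W) → A} (hγl : γ ∈ C1 (F.Hw W).subtype (p := p))
    (hγ : ∀ (g h : ↥(Dec W)) (hg : (g : GG) ∈ F.N) (hh : (h : GG) ∈ F.N),
      F.shiftC W t η g h 1 =
        γ ⟨h, Subgroup.mem_inf.2 ⟨hh, h.2⟩⟩ -
          γ (⟨g, Subgroup.mem_inf.2 ⟨hg, g.2⟩⟩ * ⟨h, Subgroup.mem_inf.2 ⟨hh, h.2⟩⟩) +
          γ ⟨g, Subgroup.mem_inf.2 ⟨hg, g.2⟩⟩) :
    ∃ c : ↥(Dec W) → F.LQuo W → A, LevC (Dec W).subtype c ∧ ∀ (g h : ↥(Dec W))
      (x : F.LQuo W), c h (x * (g : F.LQuo W)) - c (g * h) x + c g x = F.shiftC W t η g h x := by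
  refine ⟨fun g x => γ (F.uH W x g) + F.shiftC W t η x.out g 1 -
    F.shiftC W t η (F.uG (Dec W).subtype x g) (x * (g : F.LQuo W)).out 1, ?_, fun g h x => ?_⟩
  · obtain ⟨E, hE, hlev⟩ := ht.1
    obtain ⟨E', hE', hlevγ⟩ := hγl
    obtain ⟨M₁, hM₁, hM₁'⟩ := F.exists_level W (E ⊔ E')
    obtain ⟨M₂, hM₂, hM₂'⟩ := F.exists_level W M₁
    refine ⟨M₁ ⊔ M₂, inferInstance, fun g s hs => funext fun x => ?_⟩
    have hs₁ := IntermediateField.fixingSubgroup_antitone (le_sup_left : M₁ ≤ M₁ ⊔ M₂) hs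
    have hs₂ := IntermediateField.fixingSubgroup_antitone (le_sup_right : M₂ ≤ M₁ ⊔ M₂) hs
    obtain ⟨hgs, s', hs', e⟩ := hM₁' x g s hs₁
    obtain ⟨-, r, hr, er⟩ := hM₂' x g s hs₂
    have hEl : ∀ a : ↥(F.Hw W), (a : GG) ∈ (E ⊔ E').fixingSubgroup → (a : GG) ∈ E.fixingSubgroup :=
      fun a ha => IntermediateField.fixingSubgroup_antitone le_sup_left ha
    have er' : F.uG (Dec W).subtype x (g * s) =
        F.uG (Dec W).subtype x g * ⟨r, (Subgroup.mem_inf.1 r.2).2⟩ :=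
      Subtype.ext (congrArg (fun v : ↥(F.Hw W) => (v : GG)) er)
    have one' : (1 : GG) ∈ E.fixingSubgroup := one_mem _
    dsimp only
    rw [hgs, e, hlevγ _ _ (IntermediateField.fixingSubgroup_antitone le_sup_right hs')]
    refine congrArg₂ (· - ·) (congrArg _ ?_) ?_ <;>
      refine Finset.sum_congr rfl fun y _ => congrArg (· • _) ?_
    · obtain ⟨-, a, ha, ea⟩ := hM₁' (y * (x.out : F.LQuo W)) g s hs₁
      rw [ea]
      simpa using hlev (F.uH W y x.out) _ 1 a one' (hEl a ha)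
    · rw [er']
      obtain ⟨h0, a, ha, ea⟩ := hM₁' y (F.uG (Dec W).subtype x g)
        ⟨r, (Subgroup.mem_inf.1 r.2).2⟩ hr
      rw [h0, ea]
      have h6 := hlev (F.uH W y (F.uG (Dec W).subtype x g)) (F.uH W
        (y * ((F.uG (Dec W).subtype x g : ↥(Dec W)) : F.LQuo W)) (x * (g : F.LQuo W)).out) a 1 (hEl a ha) one'
      rw [mul_one] at h6
      exact h6
  · set u := F.uG (Dec W).subtype x g with hu
    set v := F.uG (Dec W).subtype (x * (g : F.LQuo W)) h with hv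
    set ŷ := (x * (g : F.LQuo W)).out with hy
    set ŵ := (x * (g : F.LQuo W) * (h : F.LQuo W)).out with hw
    have e1 : u * ŷ = x.out * g := F.uG_mul_out _ x g
    have e2 : v * ŵ = ŷ * h := F.uG_mul_out _ _ h
    have hux : (u : F.LQuo W) = 1 :=
      (QuotientGroup.eq_one_iff _).2 (Subgroup.mem_comap.2 (F.uG_mem _ x g))
    have i1 := F.shiftC_cocycle W (η := η) ht x.out g h 1
    have i2 := F.shiftC_cocycle W (η := η) ht u ŷ h 1
    have i3 := F.shiftC_cocycle W (η := η) ht u v ŵ 1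
    rw [QuotientGroup.out_eq', one_mul] at i1
    rw [hux, mul_one, e1, ← e2] at i2
    rw [hux, mul_one] at i3
    have hγ' : F.shiftC W t η u v 1 = γ (F.uH W (x * (g : F.LQuo W)) h) - γ (F.uH W x g *
        F.uH W (x * (g : F.LQuo W)) h) + γ (F.uH W x g) :=
      hγ u v (F.uG_mem (Dec W).subtype x g) (F.uG_mem (Dec W).subtype _ h)
    dsimp only
    rw [QuotientGroup.mk_mul, ← mul_assoc x, F.uH_mul, ← hy, ← hw, F.uG_mul, ← hu, ← hv]
    linear_combination (norm := abel) (-1 : ℤ) • i1 + i2 - i3 - hγ'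

end SField

end FLTAgent.PoitouTate
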