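import Fermat.Agent.PoitouTate.Inv
import Fermat.Agent.PoitouTate.Targets

/-!
# The decomposition group over the field

The transversal of the part of the decomposition group in the group of the field, the components
of its elements in that part, and the transfer of two cocycles with values in the cyclotomic line.
-/

set_option autoImplicit false
set_option linter.style.haveILetI false
set_option linter.unusedSectionVars false

noncomputable section

open scoped Pointwise

namespace FLTAgent.PoitouTate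

open FLTAgent.Lowering.P1 FLTAgent.Lowering.P1.Brauer

local notation "LL" => AlgebraicClosure ℚ
local notation "GG" => (AlgebraicClosure ℚ ≃ₐ[ℚ] AlgebraicClosure ℚ)
local notation "VS" => ValuationSubring (AlgebraicClosure ℚ)
local notation "Dec" => ValuationSubring.decompositionSubgroup ℚ

variable {p : ℕ} [Fact p.Prime] {A A' : Type} [AddCommGroup A] [Module (ZMod p) A] [AddCommGroup A']
  [Module (ZMod p) A'] {ρ : Representation (ZMod p) GG A} {ρ' : Representation (ZMod p) GG A'}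

/-- Moving an element to the other side of a pairing. -/
theorem DualPair.inv_left (P : DualPair ρ ρ') (g : GG) (a : A) (b : A') :
    P.e (ρ g⁻¹ a) b = (om p g)⁻¹ * P.e a (ρ' g b) := by
  have h := P.equivariant g (ρ g⁻¹ a) b
  rw [← rho_mul ρ, mul_inv_cancel, rho_one] at h
  rw [h, inv_mul_cancel_left₀ (om_ne_zero g)]

theorem om_inv (g : GG) : om p g⁻¹ = (om p g)⁻¹ :=
  eq_inv_of_mul_eq_one_left (by rw [← om_mul, inv_mul_cancel, om_one])

namespace SField

variable {S : Finset Nat.Primes} (F : SField p S)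

theorem smooth_of_triv (h : F.Triv ρ) : Smooth ρ := ⟨F.K, F.fd, h⟩

theorem rho_congr (h : F.Triv ρ) {g g' : GG} (e : g⁻¹ * g' ∈ F.N) (a : A) : ρ g' a = ρ g a := by
  rw [show g' = g * (g⁻¹ * g') by group, rho_mul ρ, h _ e, LinearMap.id_apply]

theorem om_congr {g g' : GG} (e : g⁻¹ * g' ∈ F.N) : om p g' = om p g := by
  rw [show g' = g * (g⁻¹ * g') by group, om_mul, F.zeta _ e, mul_one]

section Transversal

variable {G : Type} [Group G] (ι : G →* GG)

/-- The quotient by the part in the group of the field. -/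
abbrev Quo : Type := G ⧸ F.N.comap ι

instance quo_finite : Finite (F.Quo ι) :=
  Finite.of_injective (QuotientGroup.map (F.N.comap ι) F.N ι le_rfl) <| by
    refine (injective_iff_map_eq_one _).2 fun x hx => ?_
    obtain ⟨g, rfl⟩ := QuotientGroup.mk'_surjective (F.N.comap ι) x
    exact (QuotientGroup.eq_one_iff g).2 ((QuotientGroup.eq_one_iff (ι g)).1 hx)

instance quo_fintype : Fintype (F.Quo ι) := Fintype.ofFinite _

/-- The component of `g` at a coset. -/
def uG (x : F.Quo ι) (g : G) : G := x.out * g * (x * (g : F.Quo ι)).out⁻¹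

theorem uG_mem (x : F.Quo ι) (g : G) : ι (F.uG ι x g) ∈ F.N := by
  refine (QuotientGroup.eq_one_iff (N := F.N.comap ι) (F.uG ι x g)).1 ?_
  rw [uG, QuotientGroup.mk_mul, QuotientGroup.mk_mul, QuotientGroup.mk_inv, QuotientGroup.out_eq',
    QuotientGroup.out_eq', mul_inv_cancel]

theorem uG_mul_out (x : F.Quo ι) (g : G) :
    F.uG ι x g * (x * (g : F.Quo ι)).out = x.out * g := inv_mul_cancel_right _ _

theorem uG_mul (x : F.Quo ι) (g h : G) :
    F.uG ι x (g * h) = F.uG ι x g * F.uG ι (x * (g : F.Quo ι)) h := by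
  simp only [uG, QuotientGroup.mk_mul, mul_assoc, inv_mul_cancel_left]

theorem mk_mul_mem (g : G) {s : G} (hs : ι s ∈ F.N) :
    ((g * s : G) : F.Quo ι) = (g : F.Quo ι) := by
  rw [QuotientGroup.mk_mul, (QuotientGroup.eq_one_iff s).2 (Subgroup.mem_comap.2 hs), mul_one]

theorem uG_mem_apply (y : F.Quo ι) {s : G} (hs : ι s ∈ F.N) :
    F.uG ι y s = y.out * s * y.out⁻¹ := by
  rw [uG, (QuotientGroup.eq_one_iff s).2 (Subgroup.mem_comap.2 hs), mul_one]

theorem out_mul_mem (x : F.Quo ι) (g : G) :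
    (ι (x.out * g))⁻¹ * ι (x * (g : F.Quo ι)).out ∈ F.N := by
  rw [← map_inv, ← map_mul]
  refine (QuotientGroup.eq_one_iff (N := F.N.comap ι) _).1 ?_
  rw [QuotientGroup.mk_mul, QuotientGroup.mk_inv, QuotientGroup.mk_mul, QuotientGroup.out_eq',
    QuotientGroup.out_eq', inv_mul_cancel]

theorem rho_out_mul (h : F.Triv ρ) (x : F.Quo ι) (g : G) (a : A) :
    ρ (ι (x * (g : F.Quo ι)).out) a = ρ (ι x.out) (ρ (ι g) a) := by
  rw [F.rho_congr h (F.out_mul_mem ι x g), map_mul, rho_mul ρ]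

theorem om_out_mul (x : F.Quo ι) (g : G) :
    om p (ι (x * (g : F.Quo ι)).out) = om p (ι x.out) * om p (ι g) := by
  rw [F.om_congr (F.out_mul_mem ι x g), map_mul, om_mul]

theorem rho_inv_out_mul (h : F.Triv ρ) (x : F.Quo ι) (g : G) (a : A) :
    ρ (ι g) (ρ (ι (x * (g : F.Quo ι)).out)⁻¹ a) = ρ (ι x.out)⁻¹ a := by
  conv_rhs => rw [← rho_one ρ a, ← mul_inv_cancel (ι (x * (g : F.Quo ι)).out), rho_mul ρ,
    F.rho_out_mul ι h x g, ← rho_mul ρ, inv_mul_cancel, rho_one]

theorem rho_mk_out (h : F.Triv ρ) (g : G) (a : A) : ρ (ι (g : F.Quo ι).out) a = ρ (ι g) a := by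
  refine F.rho_congr h ?_ a
  rw [← map_inv, ← map_mul]
  refine (QuotientGroup.eq_one_iff (N := F.N.comap ι) _).1 ?_
  rw [QuotientGroup.mk_mul, QuotientGroup.mk_inv, QuotientGroup.out_eq', inv_mul_cancel]

end Transversal

variable (W : VS)

/-- The quotient of the decomposition group. -/
abbrev LQuo : Type := F.Quo (Dec W).subtype

/-- The component in the part in the group of the field. -/
def uH (x : F.LQuo W) (g : ↥(Dec W)) : ↥(F.Hw W) :=
  ⟨(F.uG (Dec W).subtype x g : ↥(Dec W)),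
    Subgroup.mem_inf.2 ⟨F.uG_mem (Dec W).subtype x g, (F.uG (Dec W).subtype x g).2⟩⟩

theorem coe_uH (x : F.LQuo W) (g : ↥(Dec W)) :
    (F.uH W x g : GG) = (F.uG (Dec W).subtype x g : ↥(Dec W)) := rfl

theorem uH_mul (x : F.LQuo W) (g h : ↥(Dec W)) :
    F.uH W x (g * h) = F.uH W x g * F.uH W (x * (g : F.LQuo W)) h :=
  Subtype.ext (by
    simp only [coe_uH, Subgroup.coe_mul]
    rw [F.uG_mul]
    rfl)

theorem localSub_Hw (W : VS) : LocalSub W (F.Hw W) :=
  ⟨inf_le_right, F.K, F.fd, fun _ h => Subgroup.mem_inf.2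
    ⟨(Subgroup.mem_inf.1 h).2, (Subgroup.mem_inf.1 h).1⟩⟩

/-- A normal field of a level over which the components are fixed. -/
theorem exists_level (E : IntermediateField ℚ LL) [FiniteDimensional ℚ E] :
    ∃ M : IntermediateField ℚ LL, FiniteDimensional ℚ M ∧
      ∀ (x : F.LQuo W) (g s : ↥(Dec W)), (s : GG) ∈ M.fixingSubgroup →
        ((g * s : ↥(Dec W)) : F.LQuo W) = (g : F.LQuo W) ∧
        ∃ s' : ↥(F.Hw W), (s' : GG) ∈ E.fixingSubgroup ∧ F.uH W x (g * s) = F.uH W x g * s' := by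
  haveI := F.fd
  obtain ⟨M, hM, hMn, hle⟩ := exists_normal_le (E ⊔ F.K)
  refine ⟨M, hM, fun x g s hs => ?_⟩
  have hsN : (Dec W).subtype s ∈ F.N :=
    IntermediateField.fixingSubgroup_antitone (le_sup_right.trans hle) hs
  refine ⟨F.mk_mul_mem _ g hsN, F.uH W (x * (g : F.LQuo W)) s, ?_, F.uH_mul W x g s⟩
  rw [coe_uH, F.uG_mem_apply _ _ hsN]
  refine IntermediateField.fixingSubgroup_antitone (le_sup_left.trans hle) ?_
  simpa using fix_conj hs (((x * (g : F.LQuo W)).out : ↥(Dec W)) : GG)⁻¹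

theorem levC_uH {α : Type} {f : ↥(F.Hw W) → α} (hf : LevC (F.Hw W).subtype f) (x : F.LQuo W) :
    LevC (Dec W).subtype fun g => f (F.uH W x g) := by
  obtain ⟨E, hE, hE'⟩ := hf
  obtain ⟨M, hM, hM'⟩ := F.exists_level W E
  refine ⟨M, hM, fun g s hs => ?_⟩
  obtain ⟨-, s', hs', e⟩ := hM' x g s hs
  dsimp only
  rw [e]
  exact hE' _ _ hs'

/-- The transfer of two cochains with values in the cyclotomic line. -/
def cor2 (t : ↥(F.Hw W) → ↥(F.Hw W) → ZMod p) (g h : ↥(Dec W)) : ZMod p :=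
  ∑ x : F.LQuo W, (om p (x.out : GG))⁻¹ * t (F.uH W x g) (F.uH W (x * (g : F.LQuo W)) h)

theorem om_uH (x : F.LQuo W) (g : ↥(Dec W)) : om p (F.uH W x g : GG) = 1 :=
  F.zeta _ (F.uG_mem (Dec W).subtype x g)

theorem cocycle_uH {t : ↥(F.Hw W) → ↥(F.Hw W) → ZMod p} (ht : t ∈ Z2 (omRep p) (F.Hw W).subtype)
    (x : F.LQuo W) (g h j : ↥(Dec W)) :
    t (F.uH W (x * (g : F.LQuo W)) h) (F.uH W (x * (g : F.LQuo W) * (h : F.LQuo W)) j) -
      t (F.uH W x (g * h)) (F.uH W (x * ((g * h : ↥(Dec W)) : F.LQuo W)) j) +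
      t (F.uH W x g) (F.uH W (x * (g : F.LQuo W)) (h * j)) -
      t (F.uH W x g) (F.uH W (x * (g : F.LQuo W)) h) = 0 := by
  have h1 := ht.2 (F.uH W x g) (F.uH W (x * (g : F.LQuo W)) h)
    (F.uH W (x * (g : F.LQuo W) * (h : F.LQuo W)) j)
  rw [omRep_apply, Subgroup.coe_subtype, om_uH, one_mul, ← F.uH_mul, ← F.uH_mul] at h1
  rwa [QuotientGroup.mk_mul, ← mul_assoc]

theorem cor2_mem_Z2 {t : ↥(F.Hw W) → ↥(F.Hw W) → ZMod p} (ht : t ∈ Z2 (omRep p) (F.Hw W).subtype) :
    F.cor2 W t ∈ Z2 (omRep p) (Dec W).subtype := by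
  refine ⟨?_, fun g h j => ?_⟩
  · obtain ⟨E, hE, hE'⟩ := ht.1
    obtain ⟨M, hM, hM'⟩ := F.exists_level W E
    refine ⟨M, hM, fun g h a b ha hb => Finset.sum_congr rfl fun x _ => ?_⟩
    obtain ⟨e0, s, hs, e⟩ := hM' x g a ha
    obtain ⟨-, s', hs', e'⟩ := hM' (x * (g : F.LQuo W)) h b hb
    rw [e0, e, e', hE' _ _ _ _ hs hs']
  · have hsum : omRep p (g : GG) (F.cor2 W t h j) = ∑ x : F.LQuo W, (om p (x.out : GG))⁻¹ *
        t (F.uH W (x * (g : F.LQuo W)) h) (F.uH W (x * (g : F.LQuo W) * (h : F.LQuo W)) j) := by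
      rw [omRep_apply, cor2, Finset.mul_sum]
      refine (Fintype.sum_equiv (Equiv.mulRight (g : F.LQuo W)) _ _ fun x => ?_).symm
      have e := F.om_out_mul (Dec W).subtype x g
      simp only [Subgroup.coe_subtype] at e
      rw [Equiv.coe_mulRight, e]
      field_simp [om_ne_zero (p := p) (g : GG)]
    rw [Subgroup.coe_subtype, hsum]
    simp only [cor2, ← Finset.sum_sub_distrib, ← Finset.sum_add_distrib]
    refine Finset.sum_eq_zero fun x _ => ?_
    rw [← mul_sub, ← mul_add, ← mul_sub, F.cocycle_uH W ht, mul_zero]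

/-- The invariant of a transfer is the invariant. -/
def InvCor : Prop :=
  ∀ t ∈ Z2 (omRep p) (F.Hw W).subtype,
    invL p W (Dec W) (F.cor2 W t) = invL p W (F.Hw W) t

end SField

end FLTAgent.PoitouTate
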